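/-
S41 / [NONEIS-GRP] (helper44): pure group theory, Mathlib only.
`exists_stable_submodule`: a group acting additively on a `ZMod p`-module `V` of cardinality `p^2`
such that every element whose action has prime-power order fixes a nonzero vector stabilises a
submodule different from `⊥` and `⊤`.  (Used to show that the eigen-system of `E` is not
Eisenstein when `E[p]` is irreducible.)
-/
import Mathlib

set_option autoImplicit false

namespace Fermat.Agent.S41.NonEis44.GroupLemma

open Module

variable {p : ℕ} [hp : Fact p.Prime] {V : Type*} [AddCommGroup V] [Module (ZMod p) V]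

/-- shear step: if `f v = v`, `f w = w + a • v` then `f^k w = w + (k*a) • v`. -/
theorem iterate_shear (f : V ≃ₗ[ZMod p] V) (v w : V) (a : ZMod p) (hv : f v = v)
    (hw : f w = w + a • v) (k : ℕ) : (f ^ k) w = w + ((k : ZMod p) * a) • v := by
  induction k with
  | zero => simp
  | succ k ih =>
    rw [pow_succ', LinearEquiv.mul_apply, ih, map_add, map_smul, hv, hw]
    push_cast
    module

theorem iterate_fixed (f : V ≃ₗ[ZMod p] V) (v : V) (hv : f v = v) (k : ℕ) : (f ^ k) v = v := by
  induction k with
  | zero => simp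
  | succ k ih => rw [pow_succ', LinearEquiv.mul_apply, ih, hv]

/-- In dimension two, an automorphism of determinant one with a nonzero fixed vector
has order dividing `p`. -/
theorem pow_p_eq_one_of_fixed (hV : finrank (ZMod p) V = 2) (f : V ≃ₗ[ZMod p] V)
    (hdet : LinearEquiv.det f = 1) {v : V} (hv0 : v ≠ 0) (hv : f v = v) : f ^ p = 1 := by
  have : Module.Finite (ZMod p) V := Module.finite_of_finrank_pos (by omega)
  obtain ⟨w, hli⟩ := exists_linearIndependent_pair_of_one_lt_finrank (R := ZMod p)
    (by omega : 1 < finrank (ZMod p) V) hv0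
  let b : Basis (Fin 2) (ZMod p) V :=
    basisOfLinearIndependentOfCardEqFinrank hli (by simp [hV])
  have hb0 : b 0 = v := by simp [b]
  have hb1 : b 1 = w := by simp [b]
  set M := LinearMap.toMatrix b b (f : V →ₗ[ZMod p] V) with hM
  have hdet' : M.det = 1 := by
    rw [hM, LinearMap.det_toMatrix, ← LinearEquiv.coe_det, hdet]; rfl
  have hfb0 : f (b 0) = b 0 := by rw [hb0, hv]
  have h00 : M 0 0 = 1 := by
    rw [hM, LinearMap.toMatrix_apply, LinearEquiv.coe_coe, hfb0]; simp
  have h10 : M 1 0 = 0 := by
    rw [hM, LinearMap.toMatrix_apply, LinearEquiv.coe_coe, hfb0]; simp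
  have h11 : M 1 1 = 1 := by
    have := hdet'
    rw [Matrix.det_fin_two, h00, h10] at this
    simpa using this
  have hfw : f w = w + M 0 1 • v := by
    have := b.sum_repr (f w)
    rw [Fin.sum_univ_two, hb0, hb1] at this
    have e0 : b.repr (f w) 0 = M 0 1 := by simp [hM, LinearMap.toMatrix_apply, hb1]
    have e1 : b.repr (f w) 1 = M 1 1 := by simp [hM, LinearMap.toMatrix_apply, hb1]
    rw [e0, e1, h11, one_smul] at this
    rw [← this]; abel
  apply LinearEquiv.toLinearMap_injective
  apply b.ext
  intro i
  fin_cases i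
  · simp only [Fin.zero_eta, LinearEquiv.coe_coe, hb0]
    rw [iterate_fixed f v hv]; rfl
  · simp only [Fin.mk_one, LinearEquiv.coe_coe, hb1]
    rw [iterate_shear f v w _ hv hfw]
    simp

section action

variable {G : Type*} [Group G] [DistribMulAction G V]

/-- an additive action automatically commutes with the `ZMod p`-scalars. -/
theorem smul_zmod_smul (g : G) (c : ZMod p) (v : V) : g • (c • v) = c • (g • v) := by
  have hc : c = ((c.val : ℕ) : ZMod p) := (ZMod.natCast_zmod_val c).symm
  rw [hc, Nat.cast_smul_eq_nsmul, Nat.cast_smul_eq_nsmul]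
  exact map_nsmul (DistribSMul.toAddMonoidHom V g) _ _

/-- the submodule of vectors fixed by a set of group elements. -/
def fixedSubmodule (S : Set G) : Submodule (ZMod p) V where
  carrier := {x | ∀ g ∈ S, g • x = x}
  zero_mem' := fun g _ => smul_zero g
  add_mem' := fun {x y} hx hy g hg => by rw [smul_add, hx g hg, hy g hg]
  smul_mem' := fun c x hx g hg => by rw [smul_zmod_smul, hx g hg]

theorem mem_fixedSubmodule {S : Set G} {x : V} :
    x ∈ fixedSubmodule (p := p) (V := V) S ↔ ∀ g ∈ S, g • x = x := Iff.rfl

/-- the action as a homomorphism to linear automorphisms. -/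
noncomputable def rho : G →* (V ≃ₗ[ZMod p] V) :=
  haveI : SMulCommClass G (ZMod p) V := ⟨fun g c v => smul_zmod_smul g c v⟩
  DistribMulAction.toModuleAut (ZMod p) V

@[simp] theorem rho_apply (g : G) (v : V) : rho (p := p) g v = g • v := rfl

/-- **Group lemma.** `V` of cardinality `p^2` with an additive action of a group `G`.
If every `g` whose action has prime-power order fixes a nonzero vector, then there is a
`G`-stable `ZMod p`-submodule different from `⊥` and `⊤`. -/
theorem exists_stable_submodule (hV : Nat.card V = p ^ 2)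
    (hfix : ∀ g : G, (∃ r k : ℕ, r.Prime ∧ ∀ v : V, g ^ (r ^ k) • v = v) →
      ∃ v : V, v ≠ 0 ∧ g • v = v) :
    ∃ N : Submodule (ZMod p) V, (∀ g : G, ∀ x ∈ N, g • x ∈ N) ∧ N ≠ ⊥ ∧ N ≠ ⊤ := by
  have hp1 : 1 < p := hp.out.one_lt
  have hVfin : Finite V := Nat.finite_of_card_ne_zero (by rw [hV]; positivity)
  have : Module.Finite (ZMod p) V := Module.Finite.of_finite
  have hrank : finrank (ZMod p) V = 2 := by
    have h := Module.natCard_eq_pow_finrank (K := ZMod p) (V := V)
    rw [hV, Nat.card_zmod] at h
    exact (Nat.pow_right_injective hp.out.two_le h).symm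
  have hfinAut : Finite (V ≃ₗ[ZMod p] V) :=
    Finite.of_injective (fun f => (f : V → V)) DFunLike.coe_injective
  -- the determinant character and its kernel
  let d : G →* (ZMod p)ˣ := (LinearEquiv.det).comp (rho (p := p) (V := V))
  let K : Subgroup G := d.ker
  have hKdet : ∀ k ∈ K, LinearEquiv.det (rho (p := p) (V := V) k) = 1 := fun k hk => hk
  -- elements of K with r-power order are killed by p
  have hKp : ∀ k ∈ K, ∀ r : ℕ, r.Prime → (rho (p := p) (V := V) k) ^ r = 1 →
      (rho (p := p) (V := V) k) ^ p = 1 := by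
    intro k hk r hr hkr
    obtain ⟨v, hv0, hv⟩ := hfix k ⟨r, 1, hr, fun v => by
      have := congrArg (fun f : V ≃ₗ[ZMod p] V => f v) hkr
      simpa [← map_pow] using this⟩
    exact pow_p_eq_one_of_fixed hrank _ (hKdet k hk) hv0 hv
  -- the image of K is a p-group
  let P : Subgroup (V ≃ₗ[ZMod p] V) := K.map (rho (p := p) (V := V))
  have hP : IsPGroup p P := by
    have hcard : Nat.card P ≠ 0 := Nat.card_pos.ne'
    have hpow := Nat.eq_prime_pow_of_unique_prime_dvd (n := Nat.card P) (p := p) hcard ?_
    · exact IsPGroup.of_card hpow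
    intro r hr hrd
    have : Fact r.Prime := ⟨hr⟩
    obtain ⟨x, hx⟩ := exists_prime_orderOf_dvd_card' r hrd
    obtain ⟨k, hk, hkx⟩ := x.2
    have hxr : (rho (p := p) (V := V) k) ^ r = 1 := by
      have h1 : x ^ r = 1 := by rw [← hx]; exact pow_orderOf_eq_one x
      have h2 := congrArg Subtype.val h1
      rw [Subgroup.coe_pow, ← hkx] at h2
      exact h2
    have hxp : x ^ p = 1 := by
      apply Subtype.ext
      rw [Subgroup.coe_pow, ← hkx]
      exact hKp k hk r hr hxr
    have hdvd : r ∣ p := hx ▸ orderOf_dvd_of_pow_eq_one hxp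
    exact (Nat.prime_dvd_prime_iff_eq hr hp.out).1 hdvd
  -- a nonzero vector fixed by P
  obtain ⟨b, hbfix, hb0⟩ := hP.exists_fixed_point_of_prime_dvd_card_of_fixed_point V
    (by rw [hV]; exact dvd_pow_self p two_ne_zero) (a := (0 : V))
    (fun g => smul_zero g)
  have hbK : ∀ k ∈ K, k • b = b := fun k hk =>
    hbfix ⟨rho (p := p) (V := V) k, k, hk, rfl⟩
  -- the fixed submodule of K
  let N : Submodule (ZMod p) V := fixedSubmodule (K : Set G)
  have hNstab : ∀ g : G, ∀ x ∈ N, g • x ∈ N := by
    intro g x hx k hk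
    have hconj : g⁻¹ * k * g ∈ K := by
      have := (inferInstance : K.Normal).conj_mem k hk g⁻¹
      simpa using this
    have := hx _ hconj
    calc k • g • x = g • (g⁻¹ * k * g) • x := by simp [mul_smul]
      _ = g • x := by rw [this]
  have hNbot : N ≠ ⊥ := by
    intro h
    have : b ∈ N := hbK
    rw [h, Submodule.mem_bot] at this
    exact hb0 this.symm
  by_cases hNtop : N = ⊤
  swap
  · exact ⟨N, hNstab, hNbot, hNtop⟩
  -- now K acts trivially, so the action is commutative
  have hKtriv : ∀ k ∈ K, ∀ v : V, k • v = v := by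
    intro k hk v
    have : v ∈ N := by rw [hNtop]; trivial
    exact this k hk
  have hcomm : ∀ g h : G, ∀ v : V, g • h • v = h • g • v := by
    intro g h v
    have hmem : g⁻¹ * h⁻¹ * g * h ∈ K := by
      change d (g⁻¹ * h⁻¹ * g * h) = 1
      simp only [map_mul, map_inv]
      rw [mul_comm (d g)⁻¹, mul_assoc, mul_assoc, inv_mul_cancel_left, inv_mul_cancel]
    have := hKtriv _ hmem v
    calc g • h • v = h • g • (g⁻¹ * h⁻¹ * g * h) • v := by simp [mul_smul]
      _ = h • g • v := by rw [this]
  by_cases htriv : ∀ g : G, ∀ v : V, g • v = v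
  · -- trivial action: any line works
    refine ⟨Submodule.span (ZMod p) {b}, ?_, ?_, ?_⟩
    · intro g x hx; rw [htriv]; exact hx
    · intro h
      have : b ∈ Submodule.span (ZMod p) {b} := Submodule.mem_span_singleton_self b
      rw [h, Submodule.mem_bot] at this
      exact hb0 this.symm
    · intro h
      have h1 : finrank (ZMod p) (Submodule.span (ZMod p) {b}) = 1 :=
        finrank_span_singleton (Ne.symm hb0)
      rw [h, finrank_top, hrank] at h1
      omega
  · -- some element acts nontrivially: pick one of prime order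
    push Not at htriv
    obtain ⟨g₀, v₀, hg₀⟩ := htriv
    let R : Subgroup (V ≃ₗ[ZMod p] V) := (rho (p := p) (V := V) (G := G)).range
    have hRne : Nat.card R ≠ 1 := by
      intro h1
      have hsub : Subsingleton R := (Nat.card_eq_one_iff_unique.1 h1).1
      have : (⟨rho (p := p) (V := V) g₀, g₀, rfl⟩ : R) = 1 := Subsingleton.elim _ _
      have := congrArg (fun f : R => (f : V ≃ₗ[ZMod p] V) v₀) this
      exact hg₀ (by simpa using this)
    obtain ⟨r, hr, hrd⟩ := Nat.exists_prime_and_dvd hRne
    have : Fact r.Prime := ⟨hr⟩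
    obtain ⟨x, hx⟩ := exists_prime_orderOf_dvd_card' r hrd
    obtain ⟨g₁, hg₁⟩ := x.2
    have hxr : (rho (p := p) (V := V) g₁) ^ r = 1 := by
      have h1 : x ^ r = 1 := by rw [← hx]; exact pow_orderOf_eq_one x
      have h2 := congrArg Subtype.val h1
      rw [Subgroup.coe_pow, ← hg₁] at h2
      exact h2
    have hx1 : rho (p := p) (V := V) g₁ ≠ 1 := by
      intro h
      have : x = 1 := Subtype.ext (by rw [← hg₁, h]; rfl)
      rw [this, orderOf_one] at hx
      exact hr.one_lt.ne hx
    obtain ⟨v₁, hv₁0, hv₁⟩ := hfix g₁ ⟨r, 1, hr, fun v => by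
      have := congrArg (fun f : V ≃ₗ[ZMod p] V => f v) hxr
      simpa [← map_pow] using this⟩
    refine ⟨fixedSubmodule ({g₁} : Set G), ?_, ?_, ?_⟩
    · intro g x hx k hk
      rw [Set.mem_singleton_iff] at hk
      subst hk
      rw [hcomm, hx k rfl]
    · intro h
      have : v₁ ∈ fixedSubmodule (p := p) ({g₁} : Set G) := by
        intro k hk; rw [Set.mem_singleton_iff] at hk; subst hk; exact hv₁
      rw [h, Submodule.mem_bot] at this
      exact hv₁0 this
    · intro h
      apply hx1
      apply LinearEquiv.ext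
      intro v
      have : v ∈ fixedSubmodule (p := p) ({g₁} : Set G) := by rw [h]; trivial
      exact this g₁ rfl

end action

end Fermat.Agent.S41.NonEis44.GroupLemma
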