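/-
S41 / [NONEIS] assembly (helper44): from `E[p]` irreducible to "the eigen-system of `E` is
not Eisenstein", against three named arithmetic inputs

* `TorsCard`  : `#E[p](ℚ̄) = p^2`;
* `TorsLift`  : at a good prime `ℓ ∉ B₀`, `ℓ ≠ p`, with `p ∣ #W̃(𝔽_ℓ) = ℓ + 1 - a_ℓ(W)`,
                every Frobenius element at `ℓ` fixes a nonzero point of `E[p]`;
* `ChebPP`    : weak Chebotarev for elements acting with prime-power order on `E[p]`:
                some power of a Frobenius element at a prime outside any finite set acts like it.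

Output `nonEisenstein`: outside any finite set of primes there is a good prime `ℓ ≠ p`
with `p ∤ ℓ + 1 - a_ℓ(W)`.  No sorry.
-/
import Fermat.Prelude.Def_FLTPrelim_Modularity
import Fermat.Prelude.Def_EllipticCurve_FrobeniusTrace
import Fermat.Agent.S41.NonEis44.GroupLemma

set_option autoImplicit false

namespace Fermat.Agent.S41.NonEis44

open WeierstrassCurve WeierstrassCurve.Affine WeierstrassCurve.Affine.Point

/-- `ℚ̄`. -/
abbrev Qb : Type := AlgebraicClosure ℚ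

/-- `Gal(ℚ̄/ℚ)`. -/
abbrev GQ : Type := Qb ≃ₐ[ℚ] Qb

variable (E : WeierstrassCurve ℚ) (W : WeierstrassCurve ℤ) (p : ℕ)

/-- `E[p](ℚ̄)` exactly as in the frozen `GaloisRepIsIrreducible`. -/
abbrev Tors : Type := Submodule.torsionBy ℤ (E⁄Qb).Point p

/-- [TORS-CARD]. -/
def TorsCard : Prop := Nat.card (Tors E p) = p ^ 2

/-- [TORS-LIFT] away from the finite set `B₀`. -/
def TorsLift (B₀ : Finset ℕ) : Prop :=
  ∀ ℓ : ℕ, ℓ.Prime → ℓ ∉ B₀ → W.IsGoodPrimeFor ℓ → ℓ ≠ p →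
    (p : ℤ) ∣ (ℓ : ℤ) + 1 - W.apOfModel ℓ →
    ∀ A : ValuationSubring Qb, A.LiesOverPrime ℓ → ∀ φ : GQ, A.IsFrobeniusAt φ ℓ →
      ∃ P : Tors E p, P ≠ 0 ∧ φ • P = P

/-- [CHEB-PP]: weak Chebotarev for elements acting with prime-power order. -/
def ChebPP : Prop :=
  ∀ σ : GQ, (∃ r k : ℕ, r.Prime ∧ ∀ P : Tors E p, σ ^ (r ^ k) • P = P) →
    ∀ B : Finset ℕ, ∃ ℓ : ℕ, ℓ.Prime ∧ ℓ ∉ B ∧
      ∃ A : ValuationSubring Qb, A.LiesOverPrime ℓ ∧
        ∃ φ : GQ, A.IsFrobeniusAt φ ℓ ∧ ∃ n : ℕ, ∀ P : Tors E p, σ • P = φ ^ n • P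

variable {E W p}

theorem pow_smul_fixed {φ : GQ} {P : Tors E p} (h : φ • P = P) (n : ℕ) : φ ^ n • P = P := by
  induction n with
  | zero => simp
  | succ n ih => rw [pow_succ, mul_smul, h, ih]

/-- **[NONEIS]**: if `E[p]` is irreducible then outside any finite set of primes there is a good
prime `ℓ ≠ p` with `p ∤ #W̃(𝔽_ℓ)`. -/
theorem nonEisenstein [Fact p.Prime] (hΔ : W.Δ ≠ 0)
    (hirr : GaloisRepIsIrreducible (K := Qb) ℚ E p)
    (hcard : TorsCard E p) {B₀ : Finset ℕ} (hlift : TorsLift E W p B₀) (hcheb : ChebPP E p)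
    (B : Finset ℕ) :
    ∃ ℓ : ℕ, ℓ.Prime ∧ ℓ ∉ B ∧ W.IsGoodPrimeFor ℓ ∧ ℓ ≠ p ∧
      ¬ (p : ℤ) ∣ (ℓ : ℤ) + 1 - W.apOfModel ℓ := by
  by_contra hcon
  push Not at hcon
  -- the finite set of primes to avoid
  let B' : Finset ℕ := B ∪ B₀ ∪ {p} ∪ W.Δ.natAbs.primeFactors
  have hfix : ∀ σ : GQ, (∃ r k : ℕ, r.Prime ∧ ∀ P : Tors E p, σ ^ (r ^ k) • P = P) →
      ∃ P : Tors E p, P ≠ 0 ∧ σ • P = P := by
    intro σ hσ
    obtain ⟨ℓ, hℓ, hℓB, A, hA, φ, hφ, n, hn⟩ := hcheb σ hσ B'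
    simp only [B', Finset.mem_union, Finset.mem_singleton, not_or] at hℓB
    obtain ⟨⟨⟨hℓB, hℓB₀⟩, hℓp⟩, hℓΔ⟩ := hℓB
    have hgood : W.IsGoodPrimeFor ℓ := by
      intro hdvd
      apply hℓΔ
      rw [Nat.mem_primeFactors]
      refine ⟨hℓ, ?_, by simpa using hΔ⟩
      exact Int.natCast_dvd.1 hdvd
    obtain ⟨P, hP0, hP⟩ := hlift ℓ hℓ hℓB₀ hgood hℓp (hcon ℓ hℓ hℓB hgood hℓp) A hA φ hφ
    exact ⟨P, hP0, by rw [hn P, pow_smul_fixed hP]⟩
  obtain ⟨N, hNstab, hNbot, hNtop⟩ :=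
    GroupLemma.exists_stable_submodule (p := p) (V := Tors E p) (G := GQ) hcard hfix
  rcases hirr.2 N hNstab with h | h
  · exact hNbot h
  · exact hNtop h

end Fermat.Agent.S41.NonEis44
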