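/-
S41 / PLUG 1 [NONEIS] CLOSED (helper44): `nonEisPlug : Contract77.NonEisPlug`, unconditional.

E-side leaves used (all landed): group lemma + assembly `NonEis44.nonEisenstein`,
`NonEis44.galoisRepIsIrreducible_of_isIntegralModelOf` ([VARCHANGE]),
`TorsCard18.card_torsion_prime_Qbar` ([TORS2], helper18), `Cheb46.chebPP_of_finite` ([CHEB-PP],
helper46), `Red89.exists_root_lift'` + `Red70.torsLift_of_rootLift` = `Red70.torsLift_model`
([RED], helper89 + helper70).  No sorry.
-/
import Mathlib
import Fermat.Agent.S41.NonEis44.Plug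
import Fermat.Agent.S41.Red70.Wire

set_option autoImplicit false

namespace Fermat.Agent.S41.NonEis44

/-- [RED] in model form, from helper70's wiring. -/
theorem torsLiftModel : TorsLiftModel := fun W _ hp hp2 _ =>
  ⟨{2}, Red70.torsLift_model W hp hp2⟩

/-- **PLUG 1 of `Contract77.s41_of_plugs`, unconditional**: an elliptic curve over `ℚ` with
irreducible `E[p]` (`p` odd) has, outside any finite set of primes, a good prime `ℓ ≠ p` of any
integral model `W` with `p ∤ ℓ + 1 - a_ℓ(W)`. -/
theorem nonEisPlug : Contract77.NonEisPlug :=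
  nonEisPlug_of_torsLift torsLiftModel

end Fermat.Agent.S41.NonEis44
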