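/-
S41 / [VARCHANGE] part 2 (helper44): Galois equivariance of the point map of a rational change of
variables and transport of the frozen `GaloisRepIsIrreducible` along it:

`galoisRepIsIrreducible_variableChange :
   GaloisRepIsIrreducible (K := Qb) ℚ E p → GaloisRepIsIrreducible (K := Qb) ℚ (C • E) p`
and the corollary for an integral model `W` of `E` (`IsIntegralModelOf`).  Complete proofs.
-/
import Fermat.Prelude.Def_FLTPrelim_Modularity
import Fermat.Prelude.Def_FLTPrelim_GaloisRep
import Fermat.Agent.S41.NonEis44.VarChange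

set_option autoImplicit false

namespace Fermat.Agent.S41.NonEis44

open WeierstrassCurve WeierstrassCurve.Affine WeierstrassCurve.Affine.Point

section generic

variable {p : ℕ} {V V' : Type*} [AddCommGroup V] [AddCommGroup V'] [Module (ZMod p) V]
  [Module (ZMod p) V'] {G : Type*} [Group G] [DistribMulAction G V] [DistribMulAction G V']

/-- transport of "nontrivial and simple" along an equivariant additive equivalence. -/
theorem simple_transport (e : V' ≃+ V) (he : ∀ (g : G) (v : V'), e (g • v) = g • e v)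
    (h : Nontrivial V ∧ ∀ N : Submodule (ZMod p) V, (∀ g : G, ∀ x ∈ N, g • x ∈ N) → N = ⊥ ∨ N = ⊤) :
    Nontrivial V' ∧
      ∀ N' : Submodule (ZMod p) V', (∀ g : G, ∀ x ∈ N', g • x ∈ N') → N' = ⊥ ∨ N' = ⊤ := by
  obtain ⟨hnt, hsimple⟩ := h
  refine ⟨e.toEquiv.nontrivial, ?_⟩
  intro N' hN'
  let eL : V' →ₗ[ZMod p] V := AddMonoidHom.toZModLinearMap p e.toAddMonoidHom
  have heL : ∀ v, eL v = e v := fun _ => rfl
  have hstab : ∀ g : G, ∀ x ∈ N'.map eL, g • x ∈ N'.map eL := by
    rintro g x ⟨x', hx', rfl⟩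
    exact ⟨g • x', hN' g x' hx', by rw [heL, heL, he]⟩
  rcases hsimple (N'.map eL) hstab with h0 | h1
  · left
    rw [eq_bot_iff]
    intro x' hx'
    have : eL x' ∈ N'.map eL := ⟨x', hx', rfl⟩
    rw [h0, Submodule.mem_bot, heL] at this
    rw [Submodule.mem_bot]
    exact e.map_eq_zero_iff.1 this
  · right
    rw [eq_top_iff]
    intro y' _
    have : eL y' ∈ N'.map eL := by rw [h1]; trivial
    obtain ⟨x', hx', hxy⟩ := this
    rw [heL, heL] at hxy
    rw [← e.injective hxy]
    exact hx'

end generic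

/-- an additive equivalence restricts to the `n`-torsion. -/
def torsionEquiv {P P' : Type*} [AddCommGroup P] [AddCommGroup P'] (e : P' ≃+ P) (n : ℕ) :
    Submodule.torsionBy ℤ P' n ≃+ Submodule.torsionBy ℤ P n where
  toFun x := ⟨e x, by
    have := x.2
    rw [Submodule.mem_torsionBy_iff] at this ⊢
    rw [← map_zsmul, this, _root_.map_zero]⟩
  invFun x := ⟨e.symm x, by
    have := x.2
    rw [Submodule.mem_torsionBy_iff] at this ⊢
    rw [← map_zsmul, this, _root_.map_zero]⟩
  left_inv x := Subtype.ext (e.symm_apply_apply _)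
  right_inv x := Subtype.ext (e.apply_symm_apply _)
  map_add' x y := Subtype.ext (map_add e _ _)

@[simp] theorem torsionEquiv_coe {P P' : Type*} [AddCommGroup P] [AddCommGroup P'] (e : P' ≃+ P)
    (n : ℕ) (x : Submodule.torsionBy ℤ P' n) : ((torsionEquiv e n x : _) : P) = e x := rfl

/-- `ℚ̄`. -/
abbrev Qb' : Type := AlgebraicClosure ℚ

variable (E : WeierstrassCurve ℚ) [E.IsElliptic] (C : VariableChange ℚ)

/-- the base change of an elliptic curve is elliptic (instance in `⁄` form). -/
instance instIsEllipticBaseChangeQb : (E⁄Qb').IsElliptic :=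
  inferInstanceAs (E.map (algebraMap ℚ Qb')).IsElliptic

theorem baseChange_variableChange :
    (C • E)⁄Qb' = (C.map (algebraMap ℚ Qb')) • (E⁄Qb') :=
  (WeierstrassCurve.map_variableChange E C (algebraMap ℚ Qb')).symm

/-- the point equivalence over `ℚ̄` attached to a rational change of variables. -/
noncomputable def pointEquivQb : ((C • E)⁄Qb').Point ≃+ (E⁄Qb').Point :=
  VarChange.pointEquiv (E⁄Qb') (C.map (algebraMap ℚ Qb')) (baseChange_variableChange E C)

theorem some_congr {F : Type*} [Field F] {W : Affine F} {x x' y y' : F} (hx : x = x')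
    (hy : y = y') {h : W.Nonsingular x y} {h' : W.Nonsingular x' y'} :
    Point.some x y h = Point.some x' y' h' := by
  subst hx; subst hy; rfl

theorem pointEquivQb_some {x y : Qb'} (h : ((C • E)⁄Qb').Nonsingular x y) :
    ∃ h', pointEquivQb E C (Point.some x y h) =
      Point.some (VarChange.fx (C.map (algebraMap ℚ Qb')) x)
        (VarChange.fy (C.map (algebraMap ℚ Qb')) x y) h' :=
  ⟨_, rfl⟩

theorem smul_some {W : WeierstrassCurve ℚ} (σ : Qb' ≃ₐ[ℚ] Qb') {x y : Qb'}
    (h : (W⁄Qb').Nonsingular x y) :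
    ∃ h', σ • (Point.some x y h : (W⁄Qb').Point) = Point.some (σ x) (σ y) h' :=
  ⟨_, rfl⟩

theorem pointEquivQb_smul (σ : Qb' ≃ₐ[ℚ] Qb') (P : ((C • E)⁄Qb').Point) :
    pointEquivQb E C (σ • P) = σ • pointEquivQb E C P := by
  rcases P with _ | ⟨x, y, h⟩
  · change pointEquivQb E C (Point.map σ.toAlgHom 0) = Point.map σ.toAlgHom (pointEquivQb E C 0)
    rw [Point.map_zero, _root_.map_zero, Point.map_zero]
  · have hu : σ (((C.map (algebraMap ℚ Qb')).u : Qb')) = ((C.map (algebraMap ℚ Qb')).u : Qb') :=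
      σ.commutes _
    have hr : σ ((C.map (algebraMap ℚ Qb')).r) = (C.map (algebraMap ℚ Qb')).r := σ.commutes _
    have hs : σ ((C.map (algebraMap ℚ Qb')).s) = (C.map (algebraMap ℚ Qb')).s := σ.commutes _
    have ht : σ ((C.map (algebraMap ℚ Qb')).t) = (C.map (algebraMap ℚ Qb')).t := σ.commutes _
    obtain ⟨h1, e1⟩ := smul_some (W := C • E) σ h
    obtain ⟨h2, e2⟩ := pointEquivQb_some E C h1
    obtain ⟨h3, e3⟩ := pointEquivQb_some E C h
    obtain ⟨h4, e4⟩ := smul_some (W := E) σ h3
    rw [e1, e2, e3, e4]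
    apply some_congr
    · simp only [VarChange.fx, map_add, map_mul, map_pow, hu, hr]
    · simp only [VarChange.fy, map_add, map_mul, map_pow, hu, hs, ht]

theorem galoisRepIsIrreducible_variableChange (p : ℕ)
    (h : GaloisRepIsIrreducible (K := Qb') ℚ E p) :
    GaloisRepIsIrreducible (K := Qb') ℚ (C • E) p := by
  refine simple_transport (p := p) (G := Qb' ≃ₐ[ℚ] Qb')
    (torsionEquiv (pointEquivQb E C) p) ?_ h
  intro σ v
  apply Subtype.ext
  exact pointEquivQb_smul E C σ v.1

/-- irreducibility passes to the rational curve underlying an integral model. -/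
theorem galoisRepIsIrreducible_of_isIntegralModelOf {W : WeierstrassCurve ℤ}
    (hW : W.IsIntegralModelOf E) (p : ℕ) (h : GaloisRepIsIrreducible (K := Qb') ℚ E p) :
    GaloisRepIsIrreducible (K := Qb') ℚ (W.map (Int.castRingHom ℚ)) p := by
  obtain ⟨C, hC⟩ := hW
  rw [← hC]
  exact galoisRepIsIrreducible_variableChange E C p h

end Fermat.Agent.S41.NonEis44
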