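/-
S41 / [NONEIS] wiring (helper44): small bridges between the frozen hypotheses of S41 and
`NonEis44.nonEisenstein`.

* `Δ_ne_zero_of_isIntegralModelOf` : an integral model of an elliptic curve has `Δ ≠ 0`;
* `intCast_not_mem_of_not_dvd`     : an integer prime to `p` is a unit modulo a maximal ideal
                                     of `ℤ̄` containing `p`;
* `not_mem_of_congr`               : `a ≡ a_ℓ(W) mod 𝔪` and `p ∤ ℓ + 1 - a_ℓ(W)` give
                                     `(ℓ + 1) - a ∉ 𝔪` (the eigenvalue of `T_ℓ - (1 + ℓ)` on the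
                                     eigen-system of `f` is a unit mod `𝔪`).
No sorry.
-/
import Fermat.Prelude.Def_FLTPrelim_Modularity

set_option autoImplicit false

namespace Fermat.Agent.S41.NonEis44

open WeierstrassCurve

theorem Δ_ne_zero_of_isIntegralModelOf {E : WeierstrassCurve ℚ} [E.IsElliptic]
    {W : WeierstrassCurve ℤ} (hW : W.IsIntegralModelOf E) : W.Δ ≠ 0 := by
  obtain ⟨C, hC⟩ := hW
  intro h0
  have h1 : (C • E).Δ = (W.map (Int.castRingHom ℚ)).Δ := by rw [hC]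
  rw [WeierstrassCurve.map_Δ, h0, map_zero, WeierstrassCurve.variableChange_Δ] at h1
  have hE : E.Δ ≠ 0 := E.isUnit_Δ.ne_zero
  have hu : ((C.u⁻¹ : ℚˣ) : ℚ) ^ 12 ≠ 0 := pow_ne_zero _ (Units.ne_zero _)
  exact (mul_ne_zero hu hE) h1

variable {p : ℕ} {𝔪 : Ideal (integralClosure ℤ ℂ)}

theorem intCast_not_mem_of_not_dvd (hp : p.Prime) (hmax : 𝔪.IsMaximal)
    (hpm : (p : integralClosure ℤ ℂ) ∈ 𝔪) {n : ℤ} (hn : ¬ (p : ℤ) ∣ n) :
    ((n : ℤ) : integralClosure ℤ ℂ) ∉ 𝔪 := by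
  intro hmem
  have hcop : IsCoprime (p : ℤ) n :=
    (Nat.prime_iff_prime_int.1 hp).coprime_iff_not_dvd.2 hn
  obtain ⟨u, v, huv⟩ := hcop
  have h1 : ((u * (p : ℤ) + v * n : ℤ) : integralClosure ℤ ℂ) ∈ 𝔪 := by
    push_cast
    exact 𝔪.add_mem (𝔪.mul_mem_left _ hpm) (𝔪.mul_mem_left _ hmem)
  rw [huv, Int.cast_one] at h1
  exact hmax.ne_top ((Ideal.eq_top_iff_one _).2 h1)

theorem not_mem_of_congr (hp : p.Prime) (hmax : 𝔪.IsMaximal)
    (hpm : (p : integralClosure ℤ ℂ) ∈ 𝔪) {ℓ : ℕ} {aW : ℤ} {a : integralClosure ℤ ℂ}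
    (hcong : a - ((aW : ℤ) : integralClosure ℤ ℂ) ∈ 𝔪)
    (hn : ¬ (p : ℤ) ∣ (ℓ : ℤ) + 1 - aW) :
    ((ℓ : integralClosure ℤ ℂ) + 1) - a ∉ 𝔪 := by
  intro hmem
  apply intCast_not_mem_of_not_dvd hp hmax hpm hn
  have : (((ℓ : ℤ) + 1 - aW : ℤ) : integralClosure ℤ ℂ) =
      (((ℓ : integralClosure ℤ ℂ) + 1) - a) + (a - ((aW : ℤ) : integralClosure ℤ ℂ)) := by
    push_cast; ring
  rw [this]
  exact 𝔪.add_mem hmem hcong

end Fermat.Agent.S41.NonEis44
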