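/-
S41 / PLUG 1 [NONEIS] — final E-side assembly (helper44).

`nonEisPlug_of_torsLift` : `Contract77.NonEisPlug` from the single remaining arithmetic input
`TorsLiftModel` ([RED]: at a good prime `ℓ ∉ B₀`, `ℓ ≠ p`, with `p ∣ ℓ + 1 - a_ℓ(W)`, every
Frobenius element at `ℓ` fixes a non-zero point of `W_ℚ[p](ℚ̄)`, `W_ℚ := W.map (Int.castRingHom ℚ)`),
everything else being discharged by landed leaves:

* `#W_ℚ[p](ℚ̄) = p^2`            : `TorsCard18.card_torsion_prime_Qbar` (helper18);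
* weak Chebotarev `ChebPP`      : `Cheb46.chebPP_of_finite` (helper46);
* `E[p]` irreducible ⇒ `W_ℚ[p]` : `NonEis44.galoisRepIsIrreducible_of_isIntegralModelOf`;
* group lemma + assembly        : `NonEis44.nonEisenstein`.

`nonEisPlug_of_rootLift` : the same from the literal statement `RootLiftToTors` of helper70's
`Red70.torsLift_of_rootLift` (steps (4)-(6) of [RED]), the root lift being the landed
`Red89.exists_root_lift'` (helper89).  No sorry.
-/
import Mathlib
import Fermat.Agent.S41.Contract77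
import Fermat.Agent.S41.NonEis44.Assembly
import Fermat.Agent.S41.NonEis44.Wiring
import Fermat.Agent.S41.NonEis44.VarChangeGal
import Fermat.Agent.S41.TorsCard18.Card
import Fermat.Agent.S41.Cheb46.ChebBridge
import Fermat.Agent.S41.Red89.RootLift

set_option autoImplicit false

namespace Fermat.Agent.S41.NonEis44

open WeierstrassCurve WeierstrassCurve.Affine WeierstrassCurve.Affine.Point

/-- the rational curve of an integral Weierstrass model. -/
abbrev modelQ (W : WeierstrassCurve ℤ) : WeierstrassCurve ℚ := W.map (Int.castRingHom ℚ)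

/-- `W_ℚ` is elliptic as soon as `Δ(W) ≠ 0`. -/
theorem isElliptic_modelQ {W : WeierstrassCurve ℤ} (hΔ : W.Δ ≠ 0) : (modelQ W).IsElliptic := by
  refine ⟨?_⟩
  have h : (modelQ W).Δ = ((W.Δ : ℤ) : ℚ) := by
    simp [modelQ, WeierstrassCurve.map_Δ]
  rw [h]
  exact isUnit_iff_ne_zero.2 (by exact_mod_cast hΔ)

/-- [RED], model form: the only remaining arithmetic input of plug 1. -/
def TorsLiftModel : Prop :=
  ∀ (W : WeierstrassCurve ℤ) (p : ℕ), p.Prime → p ≠ 2 → W.Δ ≠ 0 →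
    ∃ B₀ : Finset ℕ, TorsLift (modelQ W) W p B₀

/-- **Plug 1 from [RED]** (everything else is landed). -/
theorem nonEisPlug_of_torsLift (hred : TorsLiftModel) : Contract77.NonEisPlug := by
  intro E _ W hW p hp hp2 hirr B
  have : Fact p.Prime := ⟨hp⟩
  have hΔ : W.Δ ≠ 0 := Δ_ne_zero_of_isIntegralModelOf hW
  have : (modelQ W).IsElliptic := isElliptic_modelQ hΔ
  have hirr' : GaloisRepIsIrreducible (K := Qb) ℚ (modelQ W) p :=
    galoisRepIsIrreducible_of_isIntegralModelOf E hW p hirr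
  have hcard : TorsCard (modelQ W) p :=
    TorsCard18.card_torsion_prime_Qbar (modelQ W) hp hp2
  have : Finite (Tors (modelQ W) p) := by
    apply Nat.finite_of_card_ne_zero
    rw [hcard]
    exact pow_ne_zero _ hp.ne_zero
  have hcheb : ChebPP (modelQ W) p := Cheb46.chebPP_of_finite (modelQ W) p
  obtain ⟨B₀, hlift⟩ := hred W p hp hp2 hΔ
  exact nonEisenstein hΔ hirr' hcard hlift hcheb B

/-- the literal statement of helper70's `Red70.torsLift_of_rootLift` ([RED] steps (4)-(6)). -/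
def RootLiftToTors : Prop :=
  ∀ (W : WeierstrassCurve ℤ) {p ℓ : ℕ} (_ : p.Prime) (_ : p ≠ 2) (_ : ℓ.Prime) (_ : ℓ ≠ 2)
    (_ : ℓ ≠ p) (_ : W.IsGoodPrimeFor ℓ) (A : ValuationSubring Qb) (_ : A.LiesOverPrime ℓ)
    (φ : Qb ≃ₐ[ℚ] Qb) (_ : A.IsFrobeniusAt φ ℓ)
    (_ : ∃ (n m : ℤ) (x : Qb), x ∈ A ∧ x - (n : Qb) ∈ A.nonunits ∧
      ((((W.map (Int.castRingHom ℚ)).baseChange Qb).preΨ' p).eval x = 0) ∧
      (ℓ : ℤ) ∣ m ^ 2 + W.a₁ * n * m + W.a₃ * m - (n ^ 3 + W.a₂ * n ^ 2 + W.a₄ * n + W.a₆)),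
    ∃ P : Submodule.torsionBy ℤ ((W.map (Int.castRingHom ℚ))⁄Qb).Point p, P ≠ 0 ∧ φ • P = P

/-- [RED] from steps (4)-(6) and the landed root lift (1)-(3), with `B₀ = {2}`. -/
theorem torsLiftModel_of_rootLift (h : RootLiftToTors) : TorsLiftModel := by
  intro W p hp hp2 _
  refine ⟨{2}, ?_⟩
  intro ℓ hℓ hℓB hgood hℓp hdvd A hA φ hφ
  have hℓ2 : ℓ ≠ 2 := by simpa using hℓB
  exact h W hp hp2 hℓ hℓ2 hℓp hgood A hA φ hφ
    (Red89.exists_root_lift' W hp hp2 hℓ hℓ2 hℓp hdvd A hA)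

/-- **Plug 1 from steps (4)-(6) of [RED]**. -/
theorem nonEisPlug_of_rootLift (h : RootLiftToTors) : Contract77.NonEisPlug :=
  nonEisPlug_of_torsLift (torsLiftModel_of_rootLift h)

end Fermat.Agent.S41.NonEis44
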