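/-
S41 / [VARCHANGE] (helper44): a change of variables `C` of Weierstrass curves over a field
induces an additive bijection on points, `(x, y) ↦ (u²x + r, u³y + u²s x + t)`.
Part 1: the map, the group-homomorphism property, bijectivity.  Mathlib only.  Complete proofs.
-/
import Mathlib

set_option autoImplicit false

namespace Fermat.Agent.S41.NonEis44.VarChange

open WeierstrassCurve WeierstrassCurve.Affine

variable {F : Type*} [Field F]

/-- new `x`-coordinate. -/
def fx (C : VariableChange F) (x : F) : F := (C.u : F) ^ 2 * x + C.r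

/-- new `y`-coordinate. -/
def fy (C : VariableChange F) (x y : F) : F := (C.u : F) ^ 3 * y + (C.u : F) ^ 2 * C.s * x + C.t

variable (W : WeierstrassCurve F) (C : VariableChange F)

theorem u_ne_zero : (C.u : F) ≠ 0 := C.u.ne_zero

theorem polynomial_identity (x y : F) :
    (fy C x y) ^ 2 + W.a₁ * (fx C x) * (fy C x y) + W.a₃ * (fy C x y) -
      ((fx C x) ^ 3 + W.a₂ * (fx C x) ^ 2 + W.a₄ * (fx C x) + W.a₆) =
    (C.u : F) ^ 6 * (y ^ 2 + (C • W).a₁ * x * y + (C • W).a₃ * y -
      (x ^ 3 + (C • W).a₂ * x ^ 2 + (C • W).a₄ * x + (C • W).a₆)) := by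
  have hu := u_ne_zero C
  simp only [variableChange_a₁, variableChange_a₂, variableChange_a₃, variableChange_a₄,
    variableChange_a₆, Units.val_inv_eq_inv_val, fx, fy]
  field_simp
  ring

theorem equation_iff (x y : F) :
    (C • W).toAffine.Equation x y ↔ W.toAffine.Equation (fx C x) (fy C x y) := by
  rw [Affine.equation_iff', Affine.equation_iff', polynomial_identity W C x y]
  constructor
  · intro h; rw [h, mul_zero]
  · intro h
    rcases mul_eq_zero.1 h with h | h
    · exact absurd (pow_eq_zero_iff (by norm_num) |>.1 h) (u_ne_zero C)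
    · exact h

theorem fx_injective : Function.Injective (fx C) := by
  intro a b h
  simp only [fx, add_left_inj] at h
  exact mul_left_cancel₀ (pow_ne_zero 2 (u_ne_zero C)) h

theorem fy_injective (x : F) : Function.Injective (fy C x) := by
  intro a b h
  simp only [fy, add_left_inj] at h
  exact mul_left_cancel₀ (pow_ne_zero 3 (u_ne_zero C)) h

theorem negY_fx_fy (x y : F) :
    W.toAffine.negY (fx C x) (fy C x y) = fy C x ((C • W).toAffine.negY x y) := by
  have hu := u_ne_zero C
  simp only [Affine.negY, variableChange_a₁, variableChange_a₃, Units.val_inv_eq_inv_val, fx, fy]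
  field_simp
  ring

section slope

variable [DecidableEq F]

theorem slope_fx_fy_of_X_ne {x₁ x₂ : F} (y₁ y₂ : F) (hx : x₁ ≠ x₂) :
    W.toAffine.slope (fx C x₁) (fx C x₂) (fy C x₁ y₁) (fy C x₂ y₂) =
      (C.u : F) * (C • W).toAffine.slope x₁ x₂ y₁ y₂ + C.s := by
  have hu := u_ne_zero C
  have hx' : fx C x₁ ≠ fx C x₂ := fun h => hx (fx_injective C h)
  rw [Affine.slope_of_X_ne hx', Affine.slope_of_X_ne hx]
  have h1 : x₁ - x₂ ≠ 0 := sub_ne_zero.2 hx
  have h2 : fx C x₁ - fx C x₂ ≠ 0 := sub_ne_zero.2 hx'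
  rw [div_eq_iff h2]
  simp only [fx, fy]
  field_simp
  ring

theorem slope_fx_fy_of_Y_ne {x₁ x₂ y₁ y₂ : F} (h₁ : (C • W).toAffine.Equation x₁ y₁)
    (h₂ : (C • W).toAffine.Equation x₂ y₂) (hx : x₁ = x₂)
    (hy : y₁ ≠ (C • W).toAffine.negY x₂ y₂) :
    W.toAffine.slope (fx C x₁) (fx C x₂) (fy C x₁ y₁) (fy C x₂ y₂) =
      (C.u : F) * (C • W).toAffine.slope x₁ x₂ y₁ y₂ + C.s := by
  have hu := u_ne_zero C
  have hy12 : y₁ = y₂ := (Affine.Y_eq_of_X_eq h₁ h₂ hx).resolve_right hy
  subst hx
  subst hy12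
  have hy' : fy C x₁ y₁ ≠ W.toAffine.negY (fx C x₁) (fy C x₁ y₁) := by
    rw [negY_fx_fy]; exact fun h => hy (fy_injective C x₁ h)
  rw [Affine.slope_of_Y_ne rfl hy', Affine.slope_of_Y_ne rfl hy]
  have hd1 : y₁ - (C • W).toAffine.negY x₁ y₁ ≠ 0 := sub_ne_zero.2 hy
  have hd2 : fy C x₁ y₁ - W.toAffine.negY (fx C x₁) (fy C x₁ y₁) ≠ 0 := sub_ne_zero.2 hy'
  rw [div_eq_iff hd2, mul_div_assoc', div_add' _ _ _ hd1, div_mul_eq_mul_div, eq_div_iff hd1]
  simp only [Affine.negY, variableChange_a₁, variableChange_a₂, variableChange_a₃,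
    variableChange_a₄, Units.val_inv_eq_inv_val, fx, fy]
  field_simp
  ring

end slope

theorem addX_fx (x₁ x₂ L : F) :
    W.toAffine.addX (fx C x₁) (fx C x₂) ((C.u : F) * L + C.s) =
      fx C ((C • W).toAffine.addX x₁ x₂ L) := by
  have hu := u_ne_zero C
  simp only [Affine.addX, variableChange_a₁, variableChange_a₂, Units.val_inv_eq_inv_val, fx]
  field_simp
  ring

theorem negAddY_fy (x₁ x₂ y₁ L : F) :
    W.toAffine.negAddY (fx C x₁) (fx C x₂) (fy C x₁ y₁) ((C.u : F) * L + C.s) =
      fy C ((C • W).toAffine.addX x₁ x₂ L) ((C • W).toAffine.negAddY x₁ x₂ y₁ L) := by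
  rw [Affine.negAddY, addX_fx, Affine.negAddY]
  simp only [fx, fy]
  ring

theorem addY_fy (x₁ x₂ y₁ L : F) :
    W.toAffine.addY (fx C x₁) (fx C x₂) (fy C x₁ y₁) ((C.u : F) * L + C.s) =
      fy C ((C • W).toAffine.addX x₁ x₂ L) ((C • W).toAffine.addY x₁ x₂ y₁ L) := by
  rw [Affine.addY, negAddY_fy, addX_fx, negY_fx_fy, Affine.addY]

section point

variable [DecidableEq F] [W.IsElliptic]

theorem nonsingular_iff (x y : F) :
    (C • W).toAffine.Nonsingular x y ↔ W.toAffine.Nonsingular (fx C x) (fy C x y) := by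
  rw [← Affine.equation_iff_nonsingular, ← Affine.equation_iff_nonsingular, equation_iff]

/-- the map on points induced by the change of variables `C` (source curve `W' = C • W`). -/
def pointMap {W' : WeierstrassCurve F} (hW' : W' = C • W) :
    W'.toAffine.Point → W.toAffine.Point
  | .zero => .zero
  | .some x y h => .some (fx C x) (fy C x y)
      ((nonsingular_iff W C x y).1 (by subst hW'; exact h))

@[simp] theorem pointMap_zero {W' : WeierstrassCurve F} (hW' : W' = C • W) :
    pointMap W C hW' 0 = 0 := rfl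

theorem pointMap_some {W' : WeierstrassCurve F} (hW' : W' = C • W) {x y : F}
    (h : W'.toAffine.Nonsingular x y) :
    pointMap W C hW' (.some x y h) = .some (fx C x) (fy C x y)
      ((nonsingular_iff W C x y).1 (by subst hW'; exact h)) := rfl

theorem pointMap_add {W' : WeierstrassCurve F} (hW' : W' = C • W)
    (P Q : W'.toAffine.Point) :
    pointMap W C hW' (P + Q) = pointMap W C hW' P + pointMap W C hW' Q := by
  subst hW'
  rcases P with _ | ⟨x₁, y₁, h₁⟩
  · change pointMap W C rfl (0 + Q) = 0 + pointMap W C rfl Q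
    rw [zero_add, zero_add]
  rcases Q with _ | ⟨x₂, y₂, h₂⟩
  · change pointMap W C rfl (Affine.Point.some x₁ y₁ h₁ + 0) = pointMap W C rfl _ + 0
    rw [add_zero, add_zero]
  by_cases hx : x₁ = x₂
  · subst hx
    by_cases hy : y₁ = (C • W).toAffine.negY x₁ y₂
    · rw [Affine.Point.add_of_Y_eq rfl hy, pointMap_some, pointMap_some, pointMap_zero,
        Affine.Point.add_of_Y_eq rfl (by rw [hy, negY_fx_fy])]
    · have hy' : fy C x₁ y₁ ≠ W.toAffine.negY (fx C x₁) (fy C x₁ y₂) := by
        rw [negY_fx_fy]; exact fun h => hy (fy_injective C x₁ h)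
      rw [Affine.Point.add_of_Y_ne hy, pointMap_some, pointMap_some, pointMap_some,
        Affine.Point.add_of_Y_ne hy']
      congr 1
      · rw [slope_fx_fy_of_Y_ne W C h₁.1 h₂.1 rfl hy, addX_fx]
      · rw [slope_fx_fy_of_Y_ne W C h₁.1 h₂.1 rfl hy, addY_fy]
  · have hx' : fx C x₁ ≠ fx C x₂ := fun h => hx (fx_injective C h)
    rw [Affine.Point.add_of_X_ne hx, pointMap_some, pointMap_some, pointMap_some,
      Affine.Point.add_of_X_ne hx']
    congr 1
    · rw [slope_fx_fy_of_X_ne W C y₁ y₂ hx, addX_fx]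
    · rw [slope_fx_fy_of_X_ne W C y₁ y₂ hx, addY_fy]

theorem pointMap_injective {W' : WeierstrassCurve F} (hW' : W' = C • W) :
    Function.Injective (pointMap W C hW') := by
  subst hW'
  rintro (_ | ⟨x₁, y₁, h₁⟩) (_ | ⟨x₂, y₂, h₂⟩) h
  · rfl
  · exact absurd h (by simp [pointMap])
  · exact absurd h (by simp [pointMap])
  · simp only [pointMap, Affine.Point.some.injEq] at h
    obtain ⟨hx, hy⟩ := h
    have hx' := fx_injective C hx
    subst hx'
    have hy' := fy_injective C x₁ hy
    subst hy'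
    rfl

theorem pointMap_surjective {W' : WeierstrassCurve F} (hW' : W' = C • W) :
    Function.Surjective (pointMap W C hW') := by
  subst hW'
  have hu := u_ne_zero C
  rintro (_ | ⟨X, Y, h⟩)
  · exact ⟨0, rfl⟩
  · set x : F := (X - C.r) / (C.u : F) ^ 2 with hx
    set y : F := (Y - (C.u : F) ^ 2 * C.s * x - C.t) / (C.u : F) ^ 3 with hy
    have hfx : fx C x = X := by simp only [fx, hx]; field_simp; ring
    have hfy : fy C x y = Y := by simp only [fy, hy]; field_simp; ring
    have hns : (C • W).toAffine.Nonsingular x y := by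
      rw [nonsingular_iff, hfx, hfy]; exact h
    refine ⟨.some x y hns, ?_⟩
    simp only [pointMap]
    congr 1

/-- the additive equivalence on points induced by a change of variables. -/
noncomputable def pointEquiv {W' : WeierstrassCurve F} (hW' : W' = C • W) :
    W'.toAffine.Point ≃+ W.toAffine.Point :=
  AddEquiv.ofBijective
    ({ toFun := pointMap W C hW'
       map_zero' := rfl
       map_add' := pointMap_add W C hW' } : W'.toAffine.Point →+ W.toAffine.Point)
    ⟨pointMap_injective W C hW', pointMap_surjective W C hW'⟩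

@[simp] theorem pointEquiv_apply {W' : WeierstrassCurve F} (hW' : W' = C • W)
    (P : W'.toAffine.Point) : pointEquiv W C hW' P = pointMap W C hW' P := rfl

end point

end Fermat.Agent.S41.NonEis44.VarChange
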